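import Fermat.Agent.Lehmer.Auxiliary
import Mathlib.NumberTheory.Cyclotomic.Gal
import Mathlib.NumberTheory.NumberField.Cyclotomic.Basic

/-!
# Heights in cyclotomic fields

The argument of Amoroso and Dvornicich at the prime `5`: an algebraic integer of a cyclotomic
field, not zero and not a root of unity, has `∑ σ, log⁺ ‖σ x‖ ≥ [K : ℚ] log (5 / 2) / 10`.
-/

set_option autoImplicit false
set_option linter.style.haveILetI false

noncomputable section

open Finset Module Real NumberField Polynomial IntermediateField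

namespace FA.Lehmer

variable {L : Type*} [Field L] [NumberField L]

/-- The product formula applied to a non-zero difference divisible by `m`. -/
theorem log_le_of_congruence {u v y : L} {m : ℕ} (hm : 0 < m) (hy : IsIntegral ℤ y)
    (h : u - v = (m : L) * y) (hne : u ≠ v) :
    finrank ℚ L * log ((m : ℝ) / 2) ≤ hsum u + hsum v := by
  have h1 := pow_le_prod_norm hy h (sub_ne_zero.2 hne)
  have h2 : ∀ σ : L →+* ℂ, ‖σ (u - v)‖ ≤ 2 * (max 1 ‖σ u‖ * max 1 ‖σ v‖) := by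
    intro σ
    rw [map_sub]
    refine (norm_sub_le _ _).trans ?_
    nlinarith [le_max_left 1 ‖σ u‖, le_max_right 1 ‖σ u‖, le_max_left 1 ‖σ v‖,
      le_max_right 1 ‖σ v‖, mul_le_mul_of_nonneg_left (le_max_left 1 ‖σ v‖)
        (le_trans zero_le_one (le_max_left 1 ‖σ u‖)),
      mul_le_mul_of_nonneg_right (le_max_left 1 ‖σ u‖)
        (le_trans zero_le_one (le_max_left 1 ‖σ v‖))]
  have h3 := le_trans h1 (Finset.prod_le_prod (fun σ _ => norm_nonneg _) fun σ _ => h2 σ)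
  rw [prod_mul_distrib, prod_const, card_univ, NumberField.Embeddings.card, prod_mul_distrib,
    ← exp_hsum, ← exp_hsum, ← Real.exp_add] at h3
  have h4 : ((m : ℝ) / 2) ^ finrank ℚ L ≤ Real.exp (hsum u + hsum v) := by
    rw [div_pow, div_le_iff₀ (by positivity)]
    linarith
  have := Real.log_le_log (by positivity) h4
  rwa [Real.log_pow, Real.log_exp] at this

omit [NumberField L] in
/-- Every algebraic integer of a cyclotomic field is an integral polynomial in `ζ`. -/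
theorem exists_aeval_eq [CharZero L] {m : ℕ} [NeZero m] [IsCyclotomicExtension {m} ℚ L] {ζ : L}
    (hζ : IsPrimitiveRoot ζ m) {x : L} (hx : IsIntegral ℤ x) : ∃ G : ℤ[X], aeval ζ G = x := by
  haveI := IsCyclotomicExtension.Rat.isIntegralClosure_adjoin_singleton hζ
  obtain ⟨z, rfl⟩ := (IsIntegralClosure.isIntegral_iff (A := Algebra.adjoin ℤ ({ζ} : Set L))).1 hx
  obtain ⟨G, hG⟩ : (z : L) ∈ (aeval ζ : ℤ[X] →ₐ[ℤ] L).range := by
    rw [← Algebra.adjoin_singleton_eq_range_aeval]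
    exact z.2
  exact ⟨G, hG⟩

omit [NumberField L] in
/-- An automorphism with a prescribed effect on a primitive root of unity. -/
theorem exists_aut [CharZero L] {m : ℕ} [NeZero m] [IsCyclotomicExtension {m} ℚ L] {ζ : L}
    (hζ : IsPrimitiveRoot ζ m) {a : ℕ} (ha : a.Coprime m) :
    ∃ σ : L ≃ₐ[ℚ] L, σ ζ = ζ ^ a := by
  have hirr := cyclotomic.irreducible_rat (NeZero.pos m)
  refine ⟨(IsCyclotomicExtension.fromZetaAut hζ hirr).symm.trans
    (IsCyclotomicExtension.fromZetaAut (hζ.pow_of_coprime a ha) hirr), ?_⟩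
  rw [AlgEquiv.trans_apply,
    (AlgEquiv.symm_apply_eq _).2 (IsCyclotomicExtension.fromZetaAut_spec hζ hirr).symm,
    IsCyclotomicExtension.fromZetaAut_spec]

omit [NumberField L] in
/-- Automorphisms are determined by their effect on `ζ`. -/
theorem aut_ext [CharZero L] {m : ℕ} [NeZero m] [IsCyclotomicExtension {m} ℚ L] {ζ : L}
    (hζ : IsPrimitiveRoot ζ m) {σ τ : L ≃ₐ[ℚ] L} (h : σ ζ = τ ζ) : σ = τ := by
  apply AlgEquiv.coe_toAlgHom_injective
  apply (hζ.powerBasis ℚ).algHom_ext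
  rwa [IsPrimitiveRoot.powerBasis_gen]

/-- The generator of the group of units `≡ 1 (mod k)` of `ℤ / 5 k`. -/
theorem exists_generator {k : ℕ} (hk : 0 < k) : ∃ a : ℕ, a.Coprime (5 * k) ∧ a ≡ 1 [MOD k] ∧
    (∀ b : ℕ, b.Coprime (5 * k) → b ≡ 1 [MOD k] → ∃ i : ℕ, b ≡ a ^ i [MOD 5 * k]) ∧
    ((5 ∣ k ∧ a = 1 + k) ∨ (¬5 ∣ k ∧ a ≡ 2 [MOD 5])) := by
  by_cases h5 : 5 ∣ k
  · obtain ⟨t, rfl⟩ := h5
    refine ⟨1 + 5 * t, ?_, ?_, ?_, Or.inl ⟨dvd_mul_right 5 t, rfl⟩⟩
    · have h : (1 + 5 * t).Coprime (5 * t) :=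
        Nat.coprime_add_self_left.2 (Nat.coprime_one_left _)
      exact Nat.Coprime.mul_right h.coprime_mul_right_right h
    · exact Nat.add_mod_right 1 (5 * t)
    · intro b hbc hb
      refine ⟨b / (5 * t), ?_⟩
      have hmod : b % (5 * t) = 1 % (5 * t) := hb
      have h1 : b = 1 + b / (5 * t) * (5 * t) := by
        conv_lhs => rw [← Nat.div_add_mod b (5 * t), hmod, Nat.one_mod_eq_one.2 (by omega)]
        ring
      generalize b / (5 * t) = i at h1
      subst h1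
      clear hb hmod hbc
      induction i with
      | zero => simpa using Nat.ModEq.refl 1
      | succ i ih =>
        rw [pow_succ]
        refine Nat.ModEq.trans ?_ (ih.mul_right _)
        rw [← ZMod.natCast_eq_natCast_iff]
        push_cast
        have hsq : ((5 : ZMod (5 * (5 * t))) * t) * (5 * t) = 0 := by
          have h : (((5 * (5 * t) : ℕ)) : ZMod (5 * (5 * t))) = 0 := ZMod.natCast_self _
          push_cast at h
          linear_combination (t : ZMod (5 * (5 * t))) * h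
        linear_combination -(i : ZMod (5 * (5 * t))) * hsq
  · have hcop : Nat.Coprime 5 k := (Nat.Prime.coprime_iff_not_dvd Nat.prime_five).2 h5
    obtain ⟨a, ha5, hak⟩ := Nat.chineseRemainder hcop 2 1
    refine ⟨a, Nat.Coprime.mul_right ?_ ?_, hak, ?_, Or.inr ⟨h5, ha5⟩⟩
    · rw [Nat.Coprime, ha5.gcd_eq]
      norm_num
    · rw [Nat.Coprime, hak.gcd_eq, Nat.gcd_one_left]
    · intro b hb hbk
      have hb5 : b % 5 ≠ 0 := fun h => by
        have h2 := Nat.Coprime.coprime_mul_right_right hb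
        exact ((Nat.Prime.coprime_iff_not_dvd Nat.prime_five).1 h2.symm)
          (Nat.dvd_of_mod_eq_zero h)
      obtain ⟨i, hi⟩ : ∃ i, b % 5 = 2 ^ i % 5 := by
        have : b % 5 < 5 := Nat.mod_lt _ (by norm_num)
        interval_cases hb' : b % 5
        · exact absurd rfl hb5
        · exact ⟨0, rfl⟩
        · exact ⟨1, rfl⟩
        · exact ⟨3, rfl⟩
        · exact ⟨2, rfl⟩
      refine ⟨i, (Nat.modEq_and_modEq_iff_modEq_mul hcop).1 ⟨?_, ?_⟩⟩
      · exact Nat.ModEq.trans hi (ha5.pow i).symm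
      · exact hbk.trans (by simpa using (hak.pow i).symm)

omit [NumberField L] in
theorem root_pow_congr {m a b : ℕ} {ζ : L} (hζ : IsPrimitiveRoot ζ m) (h : a ≡ b [MOD m]) :
    ζ ^ a = ζ ^ b := by
  rw [pow_eq_pow_mod a hζ.pow_eq_one, pow_eq_pow_mod b hζ.pow_eq_one, h]

omit [NumberField L] in
theorem modEq_of_root_pow_eq {m a b : ℕ} {ζ : L} (hζ : IsPrimitiveRoot ζ m) (hm : 0 < m)
    (h : ζ ^ a = ζ ^ b) : a ≡ b [MOD m] :=
  hζ.pow_inj (Nat.mod_lt _ hm) (Nat.mod_lt _ hm)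
    (by rwa [← pow_eq_pow_mod a hζ.pow_eq_one, ← pow_eq_pow_mod b hζ.pow_eq_one])

/-- The descent: if `(σ x) ^ 5 = x ^ 5` whenever `σ` fixes `ζ ^ 5`, then `x` times a root of
unity lies in the field of `ζ ^ 5`. -/
theorem exists_root_mul_mem {k : ℕ} [NeZero k] [IsCyclotomicExtension {5 * k} ℚ L] {ζ : L}
    (hζ : IsPrimitiveRoot ζ (5 * k)) {x : L} (hx0 : x ≠ 0)
    (hall : ∀ σ : L ≃ₐ[ℚ] L, σ (ζ ^ 5) = ζ ^ 5 → σ x ^ 5 = x ^ 5) :
    ∃ w : L, w ^ (5 * k) = 1 ∧ x * w ∈ ℚ⟮ζ ^ 5⟯ := by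
  have hk : 0 < k := NeZero.pos k
  haveI : NeZero (5 * k) := ⟨by omega⟩
  have hpos : 0 < 5 * k := by omega
  have h5k : IsPrimitiveRoot (ζ ^ 5) k := hζ.pow hpos rfl
  obtain ⟨a, hacop, hak, hgen, hcase⟩ := exists_generator hk
  obtain ⟨τ, hτ⟩ := exists_aut hζ hacop
  have hτ5 : τ (ζ ^ 5) = ζ ^ 5 := by
    rw [map_pow, hτ, ← pow_mul]
    refine root_pow_congr hζ ?_
    rw [mul_comm a 5]
    simpa using hak.mul_left' 5
  have hη : IsPrimitiveRoot (ζ ^ k) 5 := hζ.pow hpos (mul_comm 5 k)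
  obtain ⟨i, -, hi⟩ := hη.eq_pow_of_pow_eq_one (show (τ x / x) ^ 5 = 1 by
    rw [div_pow, hall τ hτ5, div_self (pow_ne_zero 5 hx0)])
  have hτx : τ x = x * (ζ ^ k) ^ i := by rw [hi, mul_div_cancel₀ _ hx0]
  obtain ⟨w, hwroot, hw⟩ : ∃ w : L, w ^ (5 * k) = 1 ∧ τ (x * w) = x * w := by
    rcases hcase with ⟨-, rfl⟩ | ⟨-, ha2⟩
    · refine ⟨ζ ^ (4 * i), by rw [← pow_mul, mul_comm, pow_mul, hζ.pow_eq_one, one_pow], ?_⟩
      rw [map_mul, hτx, map_pow, hτ, ← pow_mul, ← pow_mul, mul_assoc, ← pow_add]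
      congr 1
      refine root_pow_congr hζ ?_
      rw [← ZMod.natCast_eq_natCast_iff]
      have h : (((5 * k : ℕ)) : ZMod (5 * k)) = 0 := ZMod.natCast_self _
      push_cast at h ⊢
      linear_combination (i : ZMod (5 * k)) * h
    · refine ⟨ζ ^ (k * (4 * i)),
        by rw [← pow_mul, mul_comm, pow_mul, hζ.pow_eq_one, one_pow], ?_⟩
      rw [map_mul, hτx, map_pow, hτ, ← pow_mul, ← pow_mul, mul_assoc, ← pow_add]
      congr 1
      refine root_pow_congr hζ ?_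
      have h2 : k * a ≡ k * 2 [MOD 5 * k] := mul_comm 5 k ▸ ha2.mul_left' k
      have h : (((5 * k : ℕ)) : ZMod (5 * k)) = 0 := ZMod.natCast_self _
      rw [← ZMod.natCast_eq_natCast_iff] at h2 ⊢
      push_cast at h h2 ⊢
      linear_combination 4 * (i : ZMod (5 * k)) * h2 + (i : ZMod (5 * k)) * h
  have hfixed : ∀ σ : L ≃ₐ[ℚ] L, σ (ζ ^ 5) = ζ ^ 5 → σ (x * w) = x * w := by
    intro σ hσ
    obtain ⟨b, hb, hσζ⟩ := hζ.eq_pow_of_pow_eq_one
      (show σ ζ ^ (5 * k) = 1 by rw [← map_pow, hζ.pow_eq_one, map_one])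
    have hbcop : b.Coprime (5 * k) := (hζ.pow_iff_coprime hpos b).1
      (hσζ ▸ hζ.map_of_injective σ.injective)
    have hbk : b ≡ 1 [MOD k] := by
      refine modEq_of_root_pow_eq h5k hk ?_
      rw [pow_one, ← pow_mul, mul_comm, pow_mul, hσζ, ← map_pow, hσ]
    obtain ⟨j, hj⟩ := hgen b hbcop hbk
    have hpow : ∀ j : ℕ, (τ ^ j) ζ = ζ ^ (a ^ j) ∧ (τ ^ j) (x * w) = x * w := by
      intro j
      induction j with
      | zero => exact ⟨by rw [pow_zero, pow_zero, pow_one]; rfl, by rw [pow_zero]; rfl⟩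
      | succ j ihj =>
        rw [pow_succ', AlgEquiv.mul_apply, AlgEquiv.mul_apply, ihj.1, ihj.2, map_pow, hτ,
          ← pow_mul, pow_succ' a]
        exact ⟨rfl, hw⟩
    rw [aut_ext hζ (show σ ζ = (τ ^ j) ζ by
      rw [← hσζ, (hpow j).1]; exact root_pow_congr hζ hj)]
    exact (hpow j).2
  haveI : IsGalois ℚ L := IsCyclotomicExtension.isGalois {5 * k} ℚ L
  refine ⟨w, hwroot, ?_⟩
  rw [← IsGalois.fixedField_fixingSubgroup ℚ⟮ζ ^ 5⟯]
  exact fun ⟨σ, hσ⟩ => hfixed σ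
    ((IntermediateField.mem_fixingSubgroup_iff _ σ).1 hσ _ (mem_adjoin_simple_self ℚ _))

theorem map_aeval_aut (σ : L ≃ₐ[ℚ] L) (z : L) (G : ℤ[X]) :
    σ (aeval z G) = aeval (σ z) G :=
  map_aeval_int σ.toRingEquiv.toRingHom z G

theorem hsum_aut (σ : L ≃ₐ[ℚ] L) (x : L) : hsum (σ x) = hsum x := hsum_ringEquiv σ.toRingEquiv x

/-- The bound where `5` does not divide the conductor. -/
theorem hsum_bound_unramified {m : ℕ} [NeZero m] [IsCyclotomicExtension {m} ℚ L] (hm : ¬5 ∣ m)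
    {x : L} (hx : IsIntegral ℤ x) (hx0 : x ≠ 0) (hroot : ∀ k : ℕ, 0 < k → x ^ k ≠ 1) :
    finrank ℚ L * log (5 / 2) ≤ 10 * hsum x := by
  haveI : Fact (Nat.Prime 5) := ⟨Nat.prime_five⟩
  have hζ := IsCyclotomicExtension.zeta_spec m ℚ L
  obtain ⟨G, hG⟩ := exists_aeval_eq hζ hx
  obtain ⟨y, hy, hxy⟩ := aeval_pow_prime 5 G (hζ.isIntegral (NeZero.pos m))
  have hhx := hsum_pos hx hx0 hroot
  obtain ⟨σ, hσ⟩ := exists_aut hζ ((Nat.Prime.coprime_iff_not_dvd Nat.prime_five).2 hm)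
  rw [← hσ, ← map_aeval_aut, hG] at hxy
  have hne : σ x ≠ x ^ 5 := by
    intro h
    have h1 := congrArg hsum h
    rw [hsum_pow, hsum_aut] at h1
    norm_num at h1
    linarith
  have := log_le_of_congruence (by norm_num : 0 < 5) hy
    (show σ x - x ^ 5 = ((5 : ℕ) : L) * y by rw [hxy]; ring) hne
  rw [hsum_pow, hsum_aut] at this
  norm_num at this
  linarith

/-- The bound where `5` divides the conductor, unless the descent applies. -/
theorem hsum_bound_ramified {k : ℕ} [NeZero k] [IsCyclotomicExtension {5 * k} ℚ L] {ζ : L}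
    (hζ : IsPrimitiveRoot ζ (5 * k)) {x : L} (hx : IsIntegral ℤ x) {σ : L ≃ₐ[ℚ] L}
    (hσ : σ (ζ ^ 5) = ζ ^ 5) (hne : σ x ^ 5 ≠ x ^ 5) :
    finrank ℚ L * log (5 / 2) ≤ 10 * hsum x := by
  haveI : Fact (Nat.Prime 5) := ⟨Nat.prime_five⟩
  haveI : NeZero (5 * k) := ⟨by have := NeZero.pos k; omega⟩
  obtain ⟨G, hG⟩ := exists_aeval_eq hζ hx
  obtain ⟨y, hy, hxy⟩ := aeval_pow_prime 5 G (hζ.isIntegral (NeZero.pos _))
  rw [hG] at hxy
  have hσy : IsIntegral ℤ (σ y) := map_isIntegral_int σ.toRingEquiv.toRingHom hy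
  have h := congrArg σ hxy
  rw [map_aeval_aut, hσ, map_add, map_pow, map_mul, map_natCast, hxy] at h
  have := log_le_of_congruence (by norm_num : 0 < 5) (hy.sub hσy)
    (show σ x ^ 5 - x ^ 5 = ((5 : ℕ) : L) * (y - σ y) by linear_combination -h) hne
  rw [hsum_pow, hsum_pow, hsum_aut] at this
  norm_num at this
  linarith

/-- **Amoroso–Dvornicich for cyclotomic fields**, at the prime `5`. -/
theorem hsum_cyclotomic : ∀ (m : ℕ) (L : Type) [Field L] [NumberField L] [NeZero m]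
    [IsCyclotomicExtension {m} ℚ L] (x : L), IsIntegral ℤ x → x ≠ 0 →
    (∀ k : ℕ, 0 < k → x ^ k ≠ 1) → finrank ℚ L * log (5 / 2) ≤ 10 * hsum x := by
  intro m
  induction m using Nat.strong_induction_on with
  | _ m ih =>
  intro L _ _ _ _ x hx hx0 hroot
  by_cases hdvd : 5 ∣ m
  swap
  · exact hsum_bound_unramified hdvd hx hx0 hroot
  obtain ⟨k, rfl⟩ := hdvd
  have hpos : 0 < 5 * k := NeZero.pos (5 * k)
  haveI : NeZero k := ⟨by omega⟩
  have hζ := IsCyclotomicExtension.zeta_spec (5 * k) ℚ L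
  set ζ := IsCyclotomicExtension.zeta (5 * k) ℚ L
  by_cases hall : ∀ σ : L ≃ₐ[ℚ] L, σ (ζ ^ 5) = ζ ^ 5 → σ x ^ 5 = x ^ 5
  swap
  · push Not at hall
    obtain ⟨σ, hσ, hne⟩ := hall
    exact hsum_bound_ramified hζ hx hσ hne
  obtain ⟨w, hwroot, hmem⟩ := exists_root_mul_mem hζ hx0 hall
  have h5k : IsPrimitiveRoot (ζ ^ 5) k := hζ.pow hpos rfl
  set F := ℚ⟮ζ ^ 5⟯
  haveI : IsCyclotomicExtension {k} ℚ F := h5k.intermediateField_adjoin_isCyclotomicExtension ℚ
  set γ : F := ⟨x * w, hmem⟩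
  have hmap : algebraMap F L γ = x * w := rfl
  have hw0 : w ≠ 0 := fun h => by
    rw [h, zero_pow hpos.ne'] at hwroot
    exact zero_ne_one hwroot
  have hwi : IsIntegral ℤ w := IsIntegral.of_pow hpos (hwroot ▸ isIntegral_one)
  have hγi : IsIntegral ℤ γ :=
    (isIntegral_algebraMap_iff (algebraMap F L).injective).1 (hmap ▸ hx.mul hwi)
  have hγ0 : γ ≠ 0 := fun h => mul_ne_zero hx0 hw0 (by rw [← hmap, h, map_zero])
  have hγroot : ∀ j : ℕ, 0 < j → γ ^ j ≠ 1 := fun j hj h => by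
    have h' : (x * w) ^ j = 1 := by rw [← hmap, ← map_pow, h, map_one]
    have h'' : ((x * w) ^ j) ^ (5 * k) = 1 := by rw [h', one_pow]
    rw [← pow_mul, mul_pow, mul_comm j, pow_mul w, hwroot, one_pow, mul_one] at h''
    exact hroot _ (Nat.mul_pos hpos hj) h''
  have := ih k (by omega) F γ hγi hγ0 hγroot
  rw [← hsum_mul_of_pow_eq_one hpos hwroot x, ← hmap, hsum_algebraMap,
    ← finrank_mul_finrank ℚ F L, Nat.cast_mul]
  calc (finrank ℚ F : ℝ) * finrank F L * log (5 / 2)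
      = finrank F L * (finrank ℚ F * log (5 / 2)) := by ring
    _ ≤ finrank F L * (10 * hsum γ) := mul_le_mul_of_nonneg_left this (Nat.cast_nonneg _)
    _ = 10 * (finrank F L * hsum γ) := by ring

end FA.Lehmer

end
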