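import Fermat.Agent.Lehmer.Cyclotomic
import Fermat.Agent.Root.SummaryKroneckerWeber

/-!
# The Bogomolov property of abelian fields

By the theorem of Kronecker and Weber the bound for cyclotomic fields holds for every abelian
number field.
-/

set_option autoImplicit false
set_option linter.style.haveILetI false

noncomputable section

open Module Real NumberField

namespace FA.Lehmer

variable {K : Type*} [Field K] [NumberField K]

/-- **Amoroso–Dvornicich**: in an abelian number field every algebraic integer, not zero and not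
a root of unity, has `∑ σ, log⁺ ‖σ x‖ ≥ [K : ℚ] log (5 / 2) / 10`. -/
theorem hsum_abelian [IsAbelianGalois ℚ K] {x : K} (hx : IsIntegral ℤ x) (h0 : x ≠ 0)
    (hroot : ∀ k : ℕ, 0 < k → x ^ k ≠ 1) : finrank ℚ K * log (5 / 2) ≤ 10 * hsum x := by
  obtain ⟨N, hN, ⟨f⟩⟩ := FA.Summary.kroneckerWeber_cyclotomicField K
  haveI : NeZero N := ⟨hN.ne'⟩
  haveI : NeZero (N : ℚ) := ⟨Nat.cast_ne_zero.2 hN.ne'⟩
  haveI : IsCyclotomicExtension {N} ℚ (CyclotomicField N ℚ) :=
    CyclotomicField.isCyclotomicExtension N ℚ
  haveI : NumberField (CyclotomicField N ℚ) := IsCyclotomicExtension.numberField {N} ℚ _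
  letI : Algebra K (CyclotomicField N ℚ) := f.toRingHom.toAlgebra
  have hinj : Function.Injective (algebraMap K (CyclotomicField N ℚ)) :=
    (algebraMap K (CyclotomicField N ℚ)).injective
  have h := hsum_cyclotomic N (CyclotomicField N ℚ) (algebraMap K _ x)
    (map_isIntegral_int (algebraMap K _) hx) (fun h => h0 (hinj (by rw [h, map_zero])))
    fun k hk h => hroot k hk (hinj (by rw [map_pow, h, map_one]))
  haveI : FiniteDimensional K (CyclotomicField N ℚ) :=
    Module.Finite.of_restrictScalars_finite ℚ K _
  rw [hsum_algebraMap, ← finrank_mul_finrank ℚ K (CyclotomicField N ℚ), Nat.cast_mul] at h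
  refine le_of_mul_le_mul_left (le_trans (le_of_eq ?_) (h.trans (le_of_eq ?_)))
    (show (0 : ℝ) < (finrank K (CyclotomicField N ℚ) : ℝ) from Nat.cast_pos.2 finrank_pos)
  · ring
  · ring

end FA.Lehmer

end
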