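import Fermat.Agent.Lehmer.Basic
import Mathlib.Algebra.Polynomial.Expand
import Mathlib.Analysis.Complex.ExponentialBounds
import Mathlib.FieldTheory.Finite.Basic
import Mathlib.FieldTheory.Minpoly.IsIntegrallyClosed

/-!
# The auxiliary polynomial of Dobrowolski's method

For an algebraic integer `θ` of small height in a field of degree `n` the box principle gives an
integral polynomial of degree less than `4 r² n` with small coefficients that vanishes to order
`r` at `θ`; it then vanishes at `θ ^ p` for every prime `p` that is not too small.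
-/

set_option autoImplicit false
set_option linter.style.haveILetI false

noncomputable section

open Finset Module Real NumberField Polynomial

namespace FA.Lehmer

/-- The congruence `f (X ^ p) ≡ f ^ p (mod p)`. -/
theorem expand_eq_pow_add (p : ℕ) [Fact p.Prime] (f : ℤ[X]) :
    ∃ g : ℤ[X], expand ℤ p f = f ^ p + Polynomial.C (p : ℤ) * g := by
  have h : Polynomial.C (p : ℤ) ∣ expand ℤ p f - f ^ p := by
    rw [C_dvd_iff_dvd_coeff]
    intro i
    rw [← ZMod.intCast_zmod_eq_zero_iff_dvd, ← eq_intCast (Int.castRingHom (ZMod p)), ← coeff_map,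
      Polynomial.map_sub, Polynomial.map_pow, map_expand, ZMod.expand_card, sub_self, coeff_zero]
  obtain ⟨g, hg⟩ := h
  exact ⟨g, by rw [← hg]; ring⟩

variable {K : Type*} [Field K] [NumberField K]

omit [NumberField K] in
theorem isIntegral_aeval {x : K} (hx : IsIntegral ℤ x) (G : ℤ[X]) :
    IsIntegral ℤ (aeval x G) :=
  adjoin_le_integralClosure hx (aeval_mem_adjoin_singleton ℤ x)

omit [NumberField K] in
/-- The congruence `G (x) ^ p ≡ G (x ^ p) (mod p)` in algebraic integers. -/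
theorem aeval_pow_prime (p : ℕ) [Fact p.Prime] (G : ℤ[X]) {x : K} (hx : IsIntegral ℤ x) :
    ∃ y : K, IsIntegral ℤ y ∧ aeval (x ^ p) G = aeval x G ^ p + (p : K) * y := by
  obtain ⟨g, hg⟩ := expand_eq_pow_add p G
  refine ⟨aeval x g, isIntegral_aeval hx g, ?_⟩
  rw [← expand_aeval, hg, map_add, map_pow, map_mul, aeval_C, map_natCast]

/-- A polynomial given by the vector of its first coefficients. -/
def ofVec {N : ℕ} (c : Fin N → ℤ) : ℤ[X] := ∑ i : Fin N, monomial (i : ℕ) (c i)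

theorem coeff_ofVec {N : ℕ} (c : Fin N → ℤ) (i : Fin N) : (ofVec c).coeff i = c i := by
  rw [ofVec, finsetSum_coeff, sum_eq_single i]
  · rw [coeff_monomial, if_pos rfl]
  · intro b _ hb
    rw [coeff_monomial, if_neg fun h => hb (Fin.ext h)]
  · exact fun h => absurd (mem_univ i) h

theorem coeff_ofVec_of_le {N : ℕ} (c : Fin N → ℤ) {i : ℕ} (hi : N ≤ i) :
    (ofVec c).coeff i = 0 := by
  rw [ofVec, finsetSum_coeff]
  refine sum_eq_zero fun b _ => ?_
  rw [coeff_monomial, if_neg]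
  omega

theorem natDegree_ofVec_lt {N : ℕ} (hN : 0 < N) (c : Fin N → ℤ) : (ofVec c).natDegree < N := by
  by_cases h : ofVec c = 0
  · rwa [h, natDegree_zero]
  by_contra hle
  exact h (leadingCoeff_eq_zero.1 (coeff_ofVec_of_le c (not_lt.1 hle)))

/-- The size of a value of an iterated derivative. -/
theorem norm_aeval_iterate_derivative_le {N r : ℕ} {F : ℤ[X]} (hF : F.natDegree < N) {H : ℝ}
    (hH : ∀ i, |(F.coeff i : ℝ)| ≤ H) {j : ℕ} (hj : j < r) (v : ℂ) :
    ‖aeval v (derivative^[j] F)‖ ≤ H * N ^ r * max 1 ‖v‖ ^ N := by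
  have hH0 : 0 ≤ H := le_trans (abs_nonneg _) (hH 0)
  have hN1 : (1 : ℝ) ≤ N := by exact_mod_cast (show 1 ≤ N by omega)
  have hd : (derivative^[j] F).natDegree < N :=
    lt_of_le_of_lt (natDegree_iterate_derivative F j) (by omega)
  rw [aeval_eq_sum_range' hd]
  refine (norm_sum_le _ _).trans ((sum_le_card_nsmul _ _ (H * N ^ j * max 1 ‖v‖ ^ N)
    fun i hi => ?_).trans ?_)
  · rw [zsmul_eq_mul, norm_mul, norm_pow, Complex.norm_intCast]
    refine mul_le_mul ?_ ((pow_le_pow_left₀ (norm_nonneg _) (le_max_right _ _) _).trans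
      (pow_le_pow_right₀ (le_max_left _ _) (mem_range.1 hi).le)) (by positivity) (by positivity)
    rw [coeff_iterate_derivative, nsmul_eq_mul, Int.cast_mul, abs_mul, Int.cast_natCast,
      Nat.abs_cast, mul_comm]
    by_cases hij : i + j < N
    · refine mul_le_mul (hH _) ?_ (by positivity) hH0
      exact_mod_cast (Nat.descFactorial_le_pow _ _).trans (Nat.pow_le_pow_left hij.le j)
    · rw [coeff_eq_zero_of_natDegree_lt (show F.natDegree < i + j by omega), Int.cast_zero,
        abs_zero, zero_mul]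
      positivity
  · rw [card_range, nsmul_eq_mul]
    calc (N : ℝ) * (H * N ^ j * max 1 ‖v‖ ^ N) = H * N ^ (j + 1) * max 1 ‖v‖ ^ N := by ring
      _ ≤ H * N ^ r * max 1 ‖v‖ ^ N := by
        have := pow_le_pow_right₀ hN1 (show j + 1 ≤ r by omega)
        gcongr

omit [NumberField K] in
theorem map_aeval_int {L : Type*} [CommRing L] (σ : K →+* L) (x : K) (F : ℤ[X]) :
    σ (aeval x F) = aeval (σ x) F :=
  (aeval_algHom_apply σ.toIntAlgHom x F).symm

/-- **The box principle**: a non-zero polynomial of degree less than `4 r² n` with coefficients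
of absolute value at most `60 r² n` that vanishes to order `r` at `θ`. -/
theorem exists_auxiliary {θ : K} (hθ : IsIntegral ℤ θ) {r : ℕ} (hr : 0 < r)
    (h : 4 * (r : ℝ) ^ 2 * hsum θ ≤ 1) :
    ∃ F : ℤ[X], F ≠ 0 ∧ F.natDegree < 4 * r ^ 2 * finrank ℚ K ∧
      (∀ i, |(F.coeff i : ℝ)| ≤ 15 * ((4 * r ^ 2 * finrank ℚ K : ℕ) : ℝ)) ∧
      ∀ j < r, aeval θ (derivative^[j] F) = 0 := by
  classical
  set n := finrank ℚ K with hn
  have hn0 : 0 < n := finrank_pos
  set N := 4 * r ^ 2 * n with hNdef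
  have hN0 : 0 < N := by positivity
  set H := 15 * N with hHdef
  set L := 7 * (H * N ^ r) with hLdef
  let μ : (K →+* ℂ) → ℝ := fun σ => max 1 ‖σ θ‖ ^ N
  let P : (Fin N → Fin (H + 1)) → ℤ[X] := fun c => ofVec fun i => (c i : ℤ)
  have hPdeg : ∀ c, (P c).natDegree < N := fun c => natDegree_ofVec_lt hN0 _
  have hPc : ∀ c i, |((P c).coeff i : ℝ)| ≤ (H : ℝ) := by
    intro c i
    by_cases hi : i < N
    · rw [show i = ((⟨i, hi⟩ : Fin N) : ℕ) from rfl, coeff_ofVec, Int.cast_natCast, Nat.abs_cast]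
      exact_mod_cast Nat.lt_succ_iff.1 (c ⟨i, hi⟩).isLt
    · rw [coeff_ofVec_of_le _ (not_lt.1 hi), Int.cast_zero, abs_zero]
      positivity
  let key : (Fin N → Fin (H + 1)) → Fin r × (K →+* ℂ) → ℤ × ℤ := fun c ⟨j, σ⟩ =>
    (⌊7 * (aeval (σ θ) (derivative^[(j : ℕ)] (P c))).re / μ σ⌋,
      ⌊7 * (aeval (σ θ) (derivative^[(j : ℕ)] (P c))).im / μ σ⌋)
  have hμ : ∀ σ, 0 < μ σ := fun σ => pow_pos (lt_max_of_lt_left one_pos) N
  have hrange : ∀ (x : ℝ) (σ : K →+* ℂ), |x| ≤ (H : ℝ) * N ^ r * μ σ →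
      ⌊7 * x / μ σ⌋ ∈ Finset.Icc (-(L : ℤ)) L := by
    intro x σ hx
    have h1 : |7 * x / μ σ| ≤ L := by
      rw [abs_div, abs_mul, abs_of_pos (hμ σ), div_le_iff₀ (hμ σ), hLdef]
      push_cast
      rw [abs_of_pos (show (0 : ℝ) < 7 by norm_num)]
      linarith [mul_le_mul_of_nonneg_left hx (show (0 : ℝ) ≤ 7 by norm_num)]
    rw [abs_le] at h1
    rw [Finset.mem_Icc, Int.le_floor, ← Int.lt_add_one_iff, Int.floor_lt]
    push_cast
    exact ⟨h1.1, by linarith [h1.2]⟩
  obtain ⟨c, -, c', -, hne, heq⟩ := Finset.exists_ne_map_eq_of_card_lt_of_maps_to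
    (s := (univ : Finset (Fin N → Fin (H + 1))))
    (t := Fintype.piFinset fun _ : Fin r × (K →+* ℂ) =>
      Finset.Icc (-(L : ℤ)) L ×ˢ Finset.Icc (-(L : ℤ)) L) (f := key) (by
      rw [Fintype.card_piFinset, Finset.prod_const, card_univ, Fintype.card_prod,
        Finset.card_product, Int.card_Icc, card_univ, Fintype.card_fun, Fintype.card_fin,
        Fintype.card_fin, Fintype.card_fin, NumberField.Embeddings.card]
      have hpow : ∀ M : ℕ, 15 ^ r * (15 * M * M ^ r) = (15 * M) ^ (r + 1) := fun M => by ring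
      have hz : ((L : ℤ) + 1 - -(L : ℤ)).toNat = 2 * L + 1 := by omega
      rw [hz, ← pow_two, ← pow_mul]
      have h1 : 2 * L + 1 ≤ H ^ (2 * r) := by
        have h2 : 1 ≤ H * N ^ r := Nat.one_le_iff_ne_zero.2 (by positivity)
        calc 2 * L + 1 ≤ 15 * (H * N ^ r) := by omega
          _ ≤ 15 ^ r * (H * N ^ r) :=
            Nat.mul_le_mul_right _ (Nat.le_self_pow hr.ne' 15)
          _ = H ^ (r + 1) := hpow N
          _ ≤ H ^ (2 * r) := Nat.pow_le_pow_right (by omega) (by omega)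
      calc (2 * L + 1) ^ (2 * (r * n)) ≤ (H ^ (2 * r)) ^ (2 * (r * n)) :=
            Nat.pow_le_pow_left h1 _
        _ = H ^ N := by rw [← pow_mul, hNdef]; congr 1; ring
        _ < (H + 1) ^ N := Nat.pow_lt_pow_left (by omega) hN0.ne')
    (fun c _ => Fintype.mem_piFinset.2 fun ⟨j, σ⟩ => by
      have hb := norm_aeval_iterate_derivative_le (hPdeg c) (hPc c) j.isLt (σ θ)
      exact Finset.mem_product.2 ⟨hrange _ σ ((Complex.abs_re_le_norm _).trans hb),
        hrange _ σ ((Complex.abs_im_le_norm _).trans hb)⟩)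
  refine ⟨P c - P c', ?_, ?_, ?_, ?_⟩
  · intro h0
    refine hne (funext fun i => Fin.ext ?_)
    have := congrArg (fun F : ℤ[X] => F.coeff (i : ℕ)) (sub_eq_zero.1 h0)
    simp only [P, coeff_ofVec] at this
    exact_mod_cast this
  · exact lt_of_le_of_lt (natDegree_sub_le _ _) (max_lt (hPdeg c) (hPdeg c'))
  · intro i
    rw [coeff_sub, show (15 : ℝ) * (N : ℝ) = (H : ℝ) by rw [hHdef]; push_cast; ring]
    by_cases hi : i < N
    · rw [show i = ((⟨i, hi⟩ : Fin N) : ℕ) from rfl, coeff_ofVec, coeff_ofVec, Int.cast_sub,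
        Int.cast_natCast, Int.cast_natCast]
      exact abs_sub_le_of_nonneg_of_le (by positivity)
        (by exact_mod_cast Nat.lt_succ_iff.1 (c ⟨i, hi⟩).isLt) (by positivity)
        (by exact_mod_cast Nat.lt_succ_iff.1 (c' ⟨i, hi⟩).isLt)
    · rw [coeff_ofVec_of_le _ (not_lt.1 hi), coeff_ofVec_of_le _ (not_lt.1 hi), sub_zero,
        Int.cast_zero, abs_zero]
      positivity
  · intro j hj
    by_contra h0
    have h1 := one_le_prod_norm (isIntegral_aeval hθ (derivative^[j] (P c - P c'))) h0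
    have h2 : ∀ σ : K →+* ℂ, ‖σ (aeval θ (derivative^[j] (P c - P c')))‖ ≤ 2 / 7 * μ σ := by
      intro σ
      rw [map_aeval_int, iterate_derivative_sub, map_sub]
      have he := congrFun heq (⟨j, hj⟩, σ)
      simp only [key, Prod.mk.injEq] at he
      obtain ⟨hre, him⟩ := he
      refine (Complex.norm_le_abs_re_add_abs_im _).trans ?_
      rw [Complex.sub_re, Complex.sub_im]
      have conv : ∀ x y : ℝ, ⌊7 * x / μ σ⌋ = ⌊7 * y / μ σ⌋ → |x - y| ≤ 1 / 7 * μ σ := by
        intro x y hxy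
        have := Int.abs_sub_lt_one_of_floor_eq_floor hxy
        rw [← sub_div, abs_div, abs_of_pos (hμ σ), div_lt_iff₀ (hμ σ), ← mul_sub, abs_mul,
          abs_of_pos (show (0 : ℝ) < 7 by norm_num)] at this
        linarith
      linarith [conv _ _ hre, conv _ _ him]
    have h3 := le_trans h1 (Finset.prod_le_prod (fun σ _ => norm_nonneg _) fun σ _ => h2 σ)
    rw [prod_mul_distrib, prod_const, card_univ, NumberField.Embeddings.card, Finset.prod_pow,
      ← exp_hsum, ← Real.exp_nat_mul] at h3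
    have h4 : Real.exp ((N : ℝ) * hsum θ) ≤ Real.exp 1 ^ n := by
      rw [← Real.exp_nat_mul, Real.exp_le_exp, hNdef]
      push_cast
      nlinarith [(Nat.cast_nonneg n : (0 : ℝ) ≤ n)]
    have h5 : (2 / 7 * Real.exp 1) ^ n < 1 :=
      pow_lt_one₀ (by positivity) (by linarith [Real.exp_one_lt_d9]) hn0.ne'
    rw [mul_pow] at h5
    nlinarith [pow_pos (show (0 : ℝ) < 2 / 7 by norm_num) n]

/-- Vanishing to order `r` at `θ` means divisibility by the `r`-th power of its polynomial. -/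
theorem minpoly_pow_dvd {θ : K} (hθ : IsIntegral ℤ θ) : ∀ (r : ℕ) {F : ℤ[X]},
    F ≠ 0 → r ≤ (F.map (algebraMap ℤ K)).rootMultiplicity θ → minpoly ℤ θ ^ r ∣ F
  | 0, F, _, _ => by simp
  | r + 1, F, hF, hr => by
    have hinj : Function.Injective (algebraMap ℤ K) := Int.cast_injective
    have hFK : F.map (algebraMap ℤ K) ≠ 0 := (Polynomial.map_ne_zero_iff hinj).2 hF
    have hroot : aeval θ F = 0 := by
      rw [aeval_def, ← eval_map]
      exact (rootMultiplicity_pos hFK).1 (by omega)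
    obtain ⟨G, rfl⟩ := minpoly.isIntegrallyClosed_dvd hθ hroot
    have hG : G ≠ 0 := right_ne_zero_of_mul hF
    rw [Polynomial.map_mul] at hFK hr
    rw [rootMultiplicity_mul hFK] at hr
    have hsep : ((minpoly ℤ θ).map (algebraMap ℤ K)).Separable := by
      rw [IsScalarTower.algebraMap_eq ℤ ℚ K, ← Polynomial.map_map,
        ← minpoly.isIntegrallyClosed_eq_field_fractions' ℚ hθ]
      have h : (minpoly ℚ θ).Separable := Algebra.IsSeparable.isSeparable ℚ θ
      exact h.map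
    have h1 := rootMultiplicity_le_one_of_separable hsep θ
    rw [pow_succ']
    exact mul_dvd_mul_left _ (minpoly_pow_dvd hθ r hG (by omega))

theorem max_one_pow {x : ℝ} (hx : 0 ≤ x) (p : ℕ) : max 1 x ^ p = max 1 (x ^ p) := by
  rcases le_total 1 x with h | h
  · rw [max_eq_right h, max_eq_right (one_le_pow₀ h)]
  · rw [max_eq_left h, one_pow, max_eq_left (pow_le_one₀ hx h)]

/-- **Dobrowolski's lemma**: the auxiliary polynomial vanishes at the `p`-th power. -/
theorem aeval_pow_eq_zero {θ : K} (hθ : IsIntegral ℤ θ) {r : ℕ} {F : ℤ[X]} (hr : 0 < r)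
    (hF : F ≠ 0) (hdeg : F.natDegree < 4 * r ^ 2 * finrank ℚ K)
    (hcoeff : ∀ i, |(F.coeff i : ℝ)| ≤ 15 * ((4 * r ^ 2 * finrank ℚ K : ℕ) : ℝ))
    (hvan : ∀ j < r, aeval θ (derivative^[j] F) = 0) {p : ℕ} (hp : p.Prime)
    (hlarge : 15 * ((4 * r ^ 2 * finrank ℚ K : ℕ) : ℝ) ^ 2 *
      Real.exp (4 * (r : ℝ) ^ 2 * p * hsum θ) < (p : ℝ) ^ r) :
    aeval (θ ^ p) F = 0 := by
  haveI : Fact p.Prime := ⟨hp⟩
  set n := finrank ℚ K with hn
  set N := 4 * r ^ 2 * n with hNdef
  have hn0 : 0 < n := finrank_pos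
  have hFK : F.map (algebraMap ℤ K) ≠ 0 :=
    (Polynomial.map_ne_zero_iff (show Function.Injective (algebraMap ℤ K) from
      Int.cast_injective)).2 hF
  have hmult : r ≤ (F.map (algebraMap ℤ K)).rootMultiplicity θ := by
    obtain ⟨s, rfl⟩ : ∃ s, r = s + 1 := ⟨r - 1, by omega⟩
    refine (lt_rootMultiplicity_iff_isRoot_iterate_derivative hFK).2 fun j hj => ?_
    rw [iterate_derivative_map, IsRoot.def, eval_map, ← aeval_def]
    exact hvan j (by omega)
  obtain ⟨A, hA⟩ := minpoly_pow_dvd hθ r hF hmult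
  by_contra h0
  obtain ⟨y, hy, hfy⟩ := aeval_pow_prime p (minpoly ℤ θ) hθ
  rw [minpoly.aeval, zero_pow hp.ne_zero, zero_add] at hfy
  have hxy : aeval (θ ^ p) F = ((p ^ r : ℕ) : K) * (y ^ r * aeval (θ ^ p) A) := by
    rw [hA, map_mul, map_pow, hfy, mul_pow, Nat.cast_pow, mul_assoc]
  have hint : IsIntegral ℤ (y ^ r * aeval (θ ^ p) A) :=
    (hy.pow r).mul (isIntegral_aeval (hθ.pow p) A)
  have h1 := pow_le_prod_norm hint hxy h0
  have h2 : ∀ σ : K →+* ℂ,
      ‖σ (aeval (θ ^ p) F)‖ ≤ 15 * (N : ℝ) ^ 2 * max 1 ‖σ θ‖ ^ (p * N) := by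
    intro σ
    have := norm_aeval_iterate_derivative_le (r := 1) hdeg hcoeff (j := 0) one_pos (σ (θ ^ p))
    rw [Function.iterate_zero_apply, ← map_aeval_int, pow_one] at this
    refine this.trans (le_of_eq ?_)
    rw [map_pow, norm_pow, pow_mul (max 1 ‖σ θ‖) p N, max_one_pow (norm_nonneg _)]
    ring
  have h3 := le_trans h1 (Finset.prod_le_prod (fun σ _ => norm_nonneg _) fun σ _ => h2 σ)
  rw [prod_mul_distrib, prod_const, card_univ, NumberField.Embeddings.card, Finset.prod_pow,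
    ← exp_hsum, ← Real.exp_nat_mul, Nat.cast_pow] at h3
  have h4 : Real.exp (((p * N : ℕ) : ℝ) * hsum θ) =
      Real.exp (4 * (r : ℝ) ^ 2 * p * hsum θ) ^ n := by
    rw [← Real.exp_nat_mul, hNdef]
    push_cast
    ring_nf
  rw [h4, ← mul_pow, ← hn] at h3
  exact absurd h3 (not_le.2 (pow_lt_pow_left₀ hlarge (by positivity) hn0.ne'))

end FA.Lehmer

end
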