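import Mathlib.Analysis.SpecialFunctions.Log.PosLog
import Mathlib.FieldTheory.Galois.Basic
import Mathlib.NumberTheory.NumberField.InfinitePlace.Embeddings
import Mathlib.RingTheory.Norm.Transitivity

/-!
# The height of an algebraic integer as a sum over the embeddings

For an element `x` of a number field `K` the quantity `hsum x = ∑ σ, log⁺ ‖σ x‖`, the sum over
the embeddings `σ : K → ℂ`; for an algebraic integer it is `[K : ℚ]` times the Weil height, and
the logarithm of the Mahler measure of the minimal polynomial when `x` generates `K`.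
-/

set_option autoImplicit false
set_option linter.style.haveILetI false

noncomputable section

open Finset Module Real NumberField

namespace FA.Lehmer

variable {K : Type*} [Field K] [NumberField K]

/-- The sum of `log⁺ ‖σ x‖` over the complex embeddings. -/
def hsum (x : K) : ℝ := ∑ σ : K →+* ℂ, log⁺ ‖σ x‖

theorem hsum_nonneg (x : K) : 0 ≤ hsum x := sum_nonneg fun _ _ => posLog_nonneg

theorem exp_hsum (x : K) : Real.exp (hsum x) = ∏ σ : K →+* ℂ, max 1 ‖σ x‖ := by
  rw [hsum, Real.exp_sum]
  refine prod_congr rfl fun σ _ => ?_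
  rw [posLog_eq_log_max_one (norm_nonneg _), Real.exp_log (lt_max_of_lt_left one_pos)]

theorem hsum_pow (x : K) (n : ℕ) : hsum (x ^ n) = n * hsum x := by
  simp only [hsum, map_pow, norm_pow, posLog_pow, mul_sum]

theorem hsum_ringEquiv (e : K ≃+* K) (x : K) : hsum (e x) = hsum x := by
  refine Fintype.sum_equiv
    { toFun := fun σ => σ.comp e.toRingHom
      invFun := fun σ => σ.comp e.symm.toRingHom
      left_inv := fun σ => RingHom.ext fun y => by simp
      right_inv := fun σ => RingHom.ext fun y => by simp } _ _ fun σ => ?_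
  rfl

/-- Multiplying by a root of unity does not change the height. -/
theorem hsum_mul_of_pow_eq_one {w : K} {k : ℕ} (hk : 0 < k) (hw : w ^ k = 1) (x : K) :
    hsum (x * w) = hsum x := by
  refine sum_congr rfl fun σ _ => ?_
  have h : ‖σ w‖ = 1 :=
    Complex.norm_eq_one_of_pow_eq_one (by rw [← map_pow, hw, map_one]) hk.ne'
  rw [map_mul, norm_mul, h, mul_one]

/-- The behaviour in an extension of number fields. -/
theorem hsum_algebraMap {L : Type*} [Field L] [NumberField L] [Algebra K L] (x : K) :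
    hsum (algebraMap K L x) = finrank K L * hsum x := by
  classical
  haveI : FiniteDimensional K L := Module.Finite.of_restrictScalars_finite ℚ K L
  rw [hsum, hsum, mul_sum, ← Finset.sum_fiberwise univ (fun τ : L →+* ℂ => τ.comp (algebraMap K L))]
  refine sum_congr rfl fun σ _ => ?_
  have h1 : ∀ τ ∈ univ.filter (fun τ : L →+* ℂ => τ.comp (algebraMap K L) = σ),
      log⁺ ‖τ (algebraMap K L x)‖ = log⁺ ‖σ x‖ := fun τ hτ => by
    rw [← (mem_filter.1 hτ).2]; rfl
  rw [sum_congr rfl h1, sum_const, nsmul_eq_mul]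
  congr 2
  letI : Algebra K ℂ := σ.toAlgebra
  rw [← AlgHom.card K L ℂ, ← Fintype.card_subtype]
  exact Fintype.card_congr
    { toFun := fun τ => { τ.1 with commutes' := fun r => RingHom.congr_fun τ.2 r }
      invFun := fun τ => ⟨τ.toRingHom, RingHom.ext fun r => τ.commutes r⟩
      left_inv := fun τ => rfl
      right_inv := fun τ => rfl }

/-- Kronecker's theorem. -/
theorem exists_pow_eq_one_of_hsum_eq_zero {x : K} (hx : IsIntegral ℤ x) (h0 : x ≠ 0)
    (h : hsum x = 0) : ∃ n : ℕ, 0 < n ∧ x ^ n = 1 := by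
  obtain ⟨n, hn, hxn⟩ := NumberField.Embeddings.pow_eq_one_of_norm_le_one K ℂ h0 hx fun σ => by
    have := (sum_eq_zero_iff_of_nonneg fun σ _ => posLog_nonneg).1 h σ (mem_univ σ)
    rwa [posLog_eq_zero_iff, abs_norm] at this
  exact ⟨n, hn, hxn⟩

theorem hsum_pos {x : K} (hx : IsIntegral ℤ x) (h0 : x ≠ 0)
    (hroot : ∀ n : ℕ, 0 < n → x ^ n ≠ 1) : 0 < hsum x := by
  refine lt_of_le_of_ne (hsum_nonneg x) fun h => ?_
  obtain ⟨n, hn, hxn⟩ := exists_pow_eq_one_of_hsum_eq_zero hx h0 h.symm
  exact hroot n hn hxn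

/-- The absolute norm of a non-zero algebraic integer is at least one. -/
theorem one_le_prod_norm {x : K} (hx : IsIntegral ℤ x) (h0 : x ≠ 0) :
    1 ≤ ∏ σ : K →+* ℂ, ‖σ x‖ := by
  obtain ⟨n, hn⟩ := IsIntegrallyClosed.isIntegral_iff.1 (Algebra.isIntegral_norm ℚ hx)
  have h1 : (algebraMap ℚ ℂ) (Algebra.norm ℚ x) = ∏ σ : K →+* ℂ, σ x := by
    rw [Algebra.norm_eq_prod_embeddings ℚ ℂ]
    exact (Fintype.prod_equiv (RingHom.equivRatAlgHom K ℂ) _ _ fun σ => rfl).symm
  have h2 : n ≠ 0 := by
    rintro rfl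
    rw [map_zero, eq_comm, Algebra.norm_eq_zero_iff] at hn
    exact h0 hn
  rw [← norm_prod, ← h1, ← hn, eq_intCast, map_intCast, Complex.norm_intCast]
  exact_mod_cast Int.one_le_abs h2

/-- An algebraic integer divisible by `m` has norm divisible by `m ^ [K : ℚ]`. -/
theorem pow_le_prod_norm {x y : K} {m : ℕ} (hy : IsIntegral ℤ y) (hxy : x = (m : K) * y)
    (h0 : x ≠ 0) : (m : ℝ) ^ finrank ℚ K ≤ ∏ σ : K →+* ℂ, ‖σ x‖ := by
  have hy0 : y ≠ 0 := fun h => h0 (by rw [hxy, h, mul_zero])
  simp only [hxy, map_mul, map_natCast, norm_mul, Complex.norm_natCast, prod_mul_distrib,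
    prod_const, card_univ, NumberField.Embeddings.card]
  exact le_mul_of_one_le_right (by positivity) (one_le_prod_norm hy hy0)

end FA.Lehmer

end
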