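import Fermat.Agent.Lehmer.Dobrowolski
import Mathlib.NumberTheory.Chebyshev

/-!
# Dobrowolski's bound

The choice of the parameters `r ≈ 10 L / ℓ` and of the primes up to `X ≈ 6000 L² / ℓ` for
`L = log D` and `ℓ = log L`, which gives `hsum θ ≫ (ℓ / L) ³` in every degree `≤ D`.
-/

set_option autoImplicit false
set_option linter.style.haveILetI false

noncomputable section

open Finset Module Real NumberField Filter

namespace FA.Lehmer

/-- The primes in `(√X, X]`. -/
def largePrimes (X : ℕ) : Finset ℕ := (Nat.primesLE X).filter fun p => X < p * p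

/-- Chebyshev: there are at least `X / (4 log X)` primes in `(√X, X]`. -/
theorem eventually_largePrimes : ∀ᶠ X : ℕ in atTop,
    (X : ℝ) / 4 ≤ (largePrimes X).card * Real.log X := by
  have h1 := (tendsto_pow_log_div_mul_add_atTop 1 0 2 one_ne_zero).eventually
    (ge_mem_nhds (show (0 : ℝ) < 1 / 2000 by norm_num))
  filter_upwards [tendsto_natCast_atTop_atTop.eventually h1, eventually_ge_atTop 10000]
    with X hX hX2
  have hX' : (10000 : ℝ) ≤ X := by exact_mod_cast hX2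
  set s := Real.sqrt X with hs
  have hs2 : s * s = X := Real.mul_self_sqrt (by positivity)
  have hlog1 : 1 ≤ Real.log X := by
    rw [Real.le_log_iff_exp_le (by positivity)]
    linarith [Real.exp_one_lt_d9]
  rw [one_mul, add_zero, div_le_iff₀ (by positivity)] at hX
  have hlogs : 40 * Real.log X ≤ s := by
    nlinarith [Real.sqrt_nonneg (X : ℝ)]
  have hθ := Chebyshev.theta_ge X
  have hlog : Real.log ((X : ℝ) + 1) ≤ 2 * Real.log X := by
    rw [← Real.log_rpow (by positivity), show (2 : ℝ) = ((2 : ℕ) : ℝ) by norm_num,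
      Real.rpow_natCast]
    exact Real.log_le_log (by positivity) (by nlinarith)
  have hsplit : Chebyshev.theta (X : ℝ) ≤
      Chebyshev.theta ((Nat.sqrt X : ℕ) : ℝ) + (largePrimes X).card * Real.log X := by
    rw [Chebyshev.theta_eq_sum_primesLE_log, Chebyshev.theta_eq_sum_primesLE_log,
      ← Finset.sum_filter_add_sum_filter_not (Nat.primesLE X) (fun p => X < p * p), add_comm]
    refine add_le_add (sum_le_sum_of_subset_of_nonneg (fun p hp => ?_)
      fun p _ _ => Real.log_natCast_nonneg p) ?_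
    · rw [mem_filter, not_lt, Nat.mem_primesLE] at hp
      exact Nat.mem_primesLE.2 ⟨Nat.le_sqrt.2 hp.2, hp.1.2⟩
    · rw [largePrimes, ← nsmul_eq_mul]
      refine sum_le_card_nsmul _ _ _ fun p hp => ?_
      obtain ⟨h2, h3⟩ := Nat.mem_primesLE.1 (mem_filter.1 hp).1
      exact Real.log_le_log (by exact_mod_cast h3.pos) (by exact_mod_cast h2)
  have hsmall : Chebyshev.theta ((Nat.sqrt X : ℕ) : ℝ) ≤ 2 * s := by
    refine (Chebyshev.theta_le_log4_mul_x (Nat.cast_nonneg _)).trans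
      (mul_le_mul ?_ Real.nat_sqrt_le_real_sqrt (Nat.cast_nonneg _) two_pos.le)
    rw [show (4 : ℝ) = 2 ^ 2 by norm_num, Real.log_pow]
    have := Real.log_two_lt_d9
    push_cast
    linarith
  have hlog2 := Real.log_two_gt_d9
  nlinarith [Real.sqrt_nonneg (X : ℝ), mul_le_mul_of_nonneg_left hlogs (Real.sqrt_nonneg (X : ℝ))]

/-- The parameters for the logarithms `L` and `ℓ = log L`. -/
theorem exists_parameters {L ℓ : ℝ} (hlog : ℓ = Real.log L) (hℓ : 1 ≤ ℓ)
    (hL1 : 100000 ≤ L) (hL2 : ℓ ^ 2 ≤ L) (hexp : 240 * (11 * L) ^ 4 < Real.exp L) {X : ℕ}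
    (hX : X = ⌈6000 * L ^ 2 / ℓ⌉₊) (hcount : (X : ℝ) / 4 ≤ (largePrimes X).card * Real.log X) :
    ∃ r : ℕ, 0 < r ∧ 4 * r ^ 2 < (largePrimes X).card ∧
      4 * (r : ℝ) ^ 2 * (1 / (484 * 6001) * (ℓ / L) ^ 3) ≤ 1 ∧
      ∀ p ∈ largePrimes X, 240 * (r : ℝ) ^ 4 * Real.exp (2 * L) *
        Real.exp (4 * (r : ℝ) ^ 2 * p * (1 / (484 * 6001) * (ℓ / L) ^ 3)) < (p : ℝ) ^ r := by
  have hL0 : (0 : ℝ) < L := by linarith
  have hℓ0 : (0 : ℝ) < ℓ := by linarith
  have hℓL : ℓ ≤ L := hlog ▸ Real.log_le_self hL0.le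
  set u := L / ℓ with hu
  have hu1 : 1 ≤ u := by rwa [hu, one_le_div hℓ0]
  refine ⟨⌈10 * u⌉₊, Nat.ceil_pos.2 (by positivity), ?_⟩
  set r := ⌈10 * u⌉₊ with hr
  have hr1 : 10 * u ≤ r := Nat.le_ceil _
  have hr2 : (r : ℝ) ≤ 11 * u := by
    have := Nat.ceil_lt_add_one (show 0 ≤ 10 * u by positivity)
    rw [← hr] at this
    linarith
  have hX1 : 6000 * L ^ 2 / ℓ ≤ X := hX ▸ Nat.le_ceil _
  have hX2 : (X : ℝ) ≤ 6001 * L ^ 2 / ℓ := by
    have h := Nat.ceil_lt_add_one (show 0 ≤ 6000 * L ^ 2 / ℓ by positivity)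
    rw [← hX] at h
    have : 1 ≤ L ^ 2 / ℓ := by rw [one_le_div hℓ0]; nlinarith
    have e1 : 6001 * L ^ 2 / ℓ = 6000 * L ^ 2 / ℓ + L ^ 2 / ℓ := by ring
    linarith
  have hLX : L ≤ X := by
    refine le_trans ?_ hX1
    rw [le_div_iff₀ hℓ0]
    nlinarith
  have hXL : (X : ℝ) ≤ L ^ 3 := hX2.trans (by
    rw [div_le_iff₀ hℓ0]
    nlinarith [mul_le_mul_of_nonneg_left hℓ (show 0 ≤ L ^ 3 by positivity), sq_nonneg L])
  have hX0 : (0 : ℝ) < X := by linarith
  have hlogX : Real.log X ≤ 3 * ℓ := by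
    calc Real.log X ≤ Real.log (L ^ 3) := Real.log_le_log hX0 hXL
      _ = 3 * ℓ := by rw [Real.log_pow, hlog]; push_cast; ring
  refine ⟨?_, ?_, fun p hp => ?_⟩
  · have h1 : (X : ℝ) / 4 ≤ (largePrimes X).card * (3 * ℓ) :=
      hcount.trans (mul_le_mul_of_nonneg_left hlogX (Nat.cast_nonneg _))
    have h2 : 500 * u ^ 2 ≤ ((largePrimes X).card : ℝ) := by
      refine le_of_mul_le_mul_right ?_ (show 0 < 3 * ℓ by positivity)
      refine le_trans ?_ h1
      rw [show 500 * u ^ 2 * (3 * ℓ) = 6000 * L ^ 2 / ℓ / 4 by rw [hu]; field_simp; ring]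
      linarith
    have h3 : 4 * (r : ℝ) ^ 2 ≤ 484 * u ^ 2 := by nlinarith
    exact_mod_cast lt_of_le_of_lt h3 (lt_of_lt_of_le (by nlinarith) h2)
  · calc 4 * (r : ℝ) ^ 2 * (1 / (484 * 6001) * (ℓ / L) ^ 3)
        ≤ 4 * (11 * u) ^ 2 * (1 / (484 * 6001) * (ℓ / L) ^ 3) := by gcongr
      _ = ℓ / L / 6001 := by rw [hu]; field_simp; ring
      _ ≤ 1 := by rw [div_le_one (by norm_num), div_le_iff₀ hL0]; nlinarith
  · rw [largePrimes, mem_filter, Nat.mem_primesLE] at hp
    obtain ⟨⟨hpX, hpp⟩, hpsq⟩ := hp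
    have hp0 : (0 : ℝ) < p := by exact_mod_cast hpp.pos
    have hbig : 5 * L < Real.log p * r := by
      have h1 : ℓ < 2 * Real.log p := by
        calc ℓ = Real.log L := hlog
          _ ≤ Real.log X := Real.log_le_log hL0 hLX
          _ < Real.log ((p : ℝ) * p) := Real.log_lt_log hX0 (by exact_mod_cast hpsq)
          _ = 2 * Real.log p := by rw [Real.log_mul hp0.ne' hp0.ne']; ring
      have h2 : 5 * L = ℓ / 2 * (10 * u) := by rw [hu]; field_simp; ring
      rw [h2]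
      exact mul_lt_mul (by linarith) hr1 (by positivity) (by linarith)
    have hexp2 : 4 * (r : ℝ) ^ 2 * p * (1 / (484 * 6001) * (ℓ / L) ^ 3) ≤ L := by
      calc _ ≤ 4 * (11 * u) ^ 2 * (6001 * L ^ 2 / ℓ) * (1 / (484 * 6001) * (ℓ / L) ^ 3) := by
            have : (p : ℝ) ≤ 6001 * L ^ 2 / ℓ :=
              le_trans (by exact_mod_cast hpX) hX2
            gcongr
        _ = L := by rw [hu]; field_simp; ring
    have hr4 : 240 * (r : ℝ) ^ 4 < Real.exp L := by
      refine lt_of_le_of_lt (mul_le_mul_of_nonneg_left (pow_le_pow_left₀ (Nat.cast_nonneg r)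
        (hr2.trans ?_) 4) (by norm_num)) hexp
      refine mul_le_mul_of_nonneg_left ?_ (by norm_num)
      rw [hu, div_le_iff₀ hℓ0]
      nlinarith
    calc 240 * (r : ℝ) ^ 4 * Real.exp (2 * L) * Real.exp _
        ≤ Real.exp L * Real.exp (2 * L) * Real.exp L := by gcongr
      _ = Real.exp (4 * L) := by rw [← Real.exp_add, ← Real.exp_add]; ring_nf
      _ < Real.exp (Real.log p * r) := Real.exp_lt_exp.2 (by linarith)
      _ = (p : ℝ) ^ r := by
        rw [mul_comm, Real.exp_nat_mul, Real.exp_log hp0]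

/-- **Dobrowolski's bound for large `D`**, in every degree at most `D`. -/
theorem eventually_bound : ∀ᶠ D : ℕ in atTop, ∀ (d : ℕ), d ≤ D →
    ∀ (K : Type) [Field K] [NumberField K], finrank ℚ K = d → ∀ θ : K, IsIntegral ℤ θ → θ ≠ 0 →
      (∀ k : ℕ, 0 < k → θ ^ k ≠ 1) →
      1 / (484 * 6001) * (Real.log (Real.log D) / Real.log D) ^ 3 < hsum θ := by
  have hL : Tendsto (fun D : ℕ => Real.log D) atTop atTop :=
    tendsto_log_atTop.comp tendsto_natCast_atTop_atTop
  have hXt : Tendsto (fun L : ℝ => ⌈6000 * L ^ 2 / Real.log L⌉₊) atTop atTop := by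
    refine tendsto_nat_ceil_atTop.comp (tendsto_atTop_mono' atTop ?_ tendsto_id)
    filter_upwards [eventually_ge_atTop (3 : ℝ)] with L hL
    have h0 : 0 < Real.log L := Real.log_pos (by linarith)
    rw [id_eq, le_div_iff₀ h0]
    nlinarith [Real.log_le_self (show (0 : ℝ) ≤ L by linarith)]
  have hpow := (tendsto_pow_log_div_mul_add_atTop 1 0 2 one_ne_zero).eventually
    (ge_mem_nhds (show (0 : ℝ) < 1 by norm_num))
  have hexp : ∀ᶠ L : ℝ in atTop, 240 * (11 * L) ^ 4 < Real.exp L := by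
    filter_upwards [(tendsto_exp_div_pow_atTop 4).eventually (eventually_gt_atTop (240 * 11 ^ 4)),
      eventually_gt_atTop (0 : ℝ)] with L h h0
    rw [lt_div_iff₀ (by positivity)] at h
    linarith [show (11 * L) ^ 4 = 11 ^ 4 * L ^ 4 from mul_pow _ _ _]
  filter_upwards [hL.eventually (((eventually_ge_atTop (100000 : ℝ)).and (hexp.and hpow)).and
    (hXt.eventually eventually_largePrimes)), eventually_ge_atTop 1]
    with D ⟨⟨hD1, hD2, hD3⟩, hD4⟩ hD0
  set L := Real.log D with hLdef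
  set ℓ := Real.log L with hℓdef
  have hℓ1 : 1 ≤ ℓ := by
    rw [hℓdef, Real.le_log_iff_exp_le (by linarith)]
    linarith [Real.exp_one_lt_d9]
  rw [one_mul, add_zero, div_le_one (by linarith)] at hD3
  obtain ⟨r, hr, hcard, hB, hP⟩ := exists_parameters hℓdef hℓ1 hD1 hD3 hD2 rfl hD4
  intro d
  induction d using Nat.strong_induction_on with
  | _ d ih =>
    intro hdD K _ _ hKd θ hθ h0 hroot
    by_cases hinj : ∀ p ∈ largePrimes ⌈6000 * L ^ 2 / ℓ⌉₊,
        Function.Injective fun σ : K →+* ℂ => σ (θ ^ p)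
    · refine hsum_gt_of_primes hθ h0 hroot hr
        (fun p hp => (Nat.mem_primesLE.1 (mem_filter.1 hp).1).2) hcard hinj hB fun p hp => ?_
      refine lt_of_le_of_lt (mul_le_mul_of_nonneg_right ?_ (Real.exp_pos _).le) (hP p hp)
      have hd : (finrank ℚ K : ℝ) ≤ Real.exp L := by
        rw [hLdef, Real.exp_log (by exact_mod_cast hD0), hKd]
        exact_mod_cast hdD
      push_cast
      calc 15 * (4 * (r : ℝ) ^ 2 * finrank ℚ K) ^ 2
          ≤ 15 * (4 * (r : ℝ) ^ 2 * Real.exp L) ^ 2 := by gcongr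
        _ = 240 * (r : ℝ) ^ 4 * Real.exp (2 * L) := by
          rw [show 2 * L = L + L by ring, Real.exp_add]; ring
    · push Not at hinj
      obtain ⟨p, hp, hnot⟩ := hinj
      rw [Function.not_injective_iff] at hnot
      obtain ⟨σ, τ, heq, hne⟩ := hnot
      obtain ⟨F, x, hlt, hxi, hx0, hxroot, hle⟩ :=
        exists_smaller hθ h0 hroot (Nat.mem_primesLE.1 (mem_filter.1 hp).1).2 hne heq
      exact lt_of_lt_of_le (ih (finrank ℚ F) (hKd ▸ hlt) (by omega) F rfl x hxi hx0 hxroot) hle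

/-- **Dobrowolski's theorem**: a non-zero algebraic integer of a number field of degree at most
`D`, not a root of unity, has `∑ σ, log⁺ ‖σ θ‖ ≥ c (log log D / log D) ³`. -/
theorem dobrowolski_hsum : ∃ c > 0, ∀ (D : ℕ), 3 ≤ D →
    ∀ (K : Type) [Field K] [NumberField K], finrank ℚ K ≤ D → ∀ θ : K, IsIntegral ℤ θ → θ ≠ 0 →
      (∀ k : ℕ, 0 < k → θ ^ k ≠ 1) →
      c * (Real.log (Real.log D) / Real.log D) ^ 3 ≤ hsum θ := by
  obtain ⟨D₀, hD₀⟩ := eventually_atTop.1 (eventually_bound.and (eventually_ge_atTop 3))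
  have hratio : ∀ D : ℕ, 3 ≤ D →
      0 < Real.log (Real.log D) / Real.log D ∧ Real.log (Real.log D) / Real.log D ≤ 1 := by
    intro D hD
    have h3 : (3 : ℝ) ≤ D := by exact_mod_cast hD
    have h1 : 1 < Real.log D := by
      rw [Real.lt_log_iff_exp_lt (by linarith)]
      linarith [Real.exp_one_lt_d9]
    exact ⟨div_pos (Real.log_pos h1) (by linarith),
      (div_le_one (by linarith)).2 (Real.log_le_self (by linarith))⟩
  obtain ⟨hpos, hle1⟩ := hratio D₀ (hD₀ D₀ le_rfl).2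
  refine ⟨1 / (484 * 6001) * (Real.log (Real.log D₀) / Real.log D₀) ^ 3, by positivity,
    fun D hD K _ _ hK θ hθ h0 hroot => ?_⟩
  obtain ⟨hDpos, hDle⟩ := hratio D hD
  rcases le_total D₀ D with h | h
  · refine le_trans ?_ ((hD₀ D h).1 _ hK K rfl θ hθ h0 hroot).le
    refine mul_le_mul_of_nonneg_right ?_ (by positivity)
    exact mul_le_of_le_one_right (by norm_num) (pow_le_one₀ hpos.le hle1)
  · refine le_trans ?_ ((hD₀ D₀ le_rfl).1 _ (hK.trans h) K rfl θ hθ h0 hroot).le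
    exact mul_le_of_le_one_right (by positivity) (pow_le_one₀ hDpos.le hDle)

end FA.Lehmer

end
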