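import Fermat.Agent.Lehmer.Auxiliary
import Mathlib.FieldTheory.KummerPolynomial

/-!
# Dobrowolski's argument

If the auxiliary polynomial vanishes at the `p`-th powers for more primes `p` than its degree
allows, the height cannot be small. Powers `θ ^ p` of smaller degree lead to an element of a
smaller field whose height is no larger.
-/

set_option autoImplicit false
set_option linter.style.haveILetI false

noncomputable section

open Finset Module Real NumberField Polynomial IntermediateField

namespace FA.Lehmer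

variable {K : Type*} [Field K] [NumberField K]

/-- The image of an element with pairwise different conjugates is its root set. -/
theorem image_eval_eq_roots (x : K) :
    univ.image (fun σ : K →+* ℂ => σ x) = ((minpoly ℚ x).aroots ℂ).toFinset := by
  classical
  ext a
  have := Set.ext_iff.1 (NumberField.Embeddings.range_eval_eq_rootSet_minpoly K ℂ x) a
  simp only [Set.mem_range, rootSet_def, Finset.mem_coe] at this
  simpa using this

/-- Two elements with pairwise different conjugates and one common conjugate have equal height. -/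
theorem hsum_eq_of_common {x y : K} (hx : Function.Injective fun σ : K →+* ℂ => σ x)
    (hy : Function.Injective fun σ : K →+* ℂ => σ y) {σ τ : K →+* ℂ} (h : σ x = τ y) :
    hsum x = hsum y := by
  classical
  have hm : minpoly ℚ x = minpoly ℚ y := by
    have h1 := minpoly.algHom_eq σ.toRatAlgHom σ.injective x
    have h2 := minpoly.algHom_eq τ.toRatAlgHom τ.injective y
    rw [RingHom.toRatAlgHom_apply] at h1 h2
    rw [← h1, ← h2, h]
  have e : ∀ z : K, Function.Injective (fun σ : K →+* ℂ => σ z) →
      hsum z = ∑ a ∈ ((minpoly ℚ z).aroots ℂ).toFinset, log⁺ ‖a‖ := fun z hz => by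
    rw [← image_eval_eq_roots, sum_image fun a _ b _ hab => hz hab]
    rfl
  rw [e x hx, e y hy, hm]

/-- If two conjugates of `θ ^ p` coincide, some non-zero algebraic integer of a smaller field,
not a root of unity, has height at most that of `θ`. -/
theorem exists_smaller {θ : K} (hθ : IsIntegral ℤ θ) (h0 : θ ≠ 0)
    (hroot : ∀ k : ℕ, 0 < k → θ ^ k ≠ 1) {p : ℕ} (hp : p.Prime) {σ τ : K →+* ℂ} (hne : σ ≠ τ)
    (h : σ (θ ^ p) = τ (θ ^ p)) :
    ∃ (F : IntermediateField ℚ K) (x : F), finrank ℚ F < finrank ℚ K ∧ IsIntegral ℤ x ∧ x ≠ 0 ∧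
      (∀ k : ℕ, 0 < k → x ^ k ≠ 1) ∧ hsum x ≤ hsum θ := by
  set F := ℚ⟮θ ^ p⟯ with hF
  set β : F := AdjoinSimple.gen ℚ (θ ^ p)
  have hβ : algebraMap F K β = θ ^ p := rfl
  have hlt : finrank ℚ F < finrank ℚ K := by
    refine lt_of_le_of_ne ?_ fun heq => hne ?_
    · calc finrank ℚ F ≤ finrank ℚ F * finrank F K := Nat.le_mul_of_pos_right _ finrank_pos
        _ = finrank ℚ K := finrank_mul_finrank ℚ F K
    · have htop : F = ⊤ := IntermediateField.eq_of_le_of_finrank_eq le_top
        (by rw [heq, IntermediateField.finrank_top'])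
      have he : σ.toRatAlgHom = τ.toRatAlgHom := by
        refine AlgHom.ext fun x => ?_
        have hx : x ∈ F := htop ▸ IntermediateField.mem_top
        induction hx using IntermediateField.adjoin_induction with
        | mem y hy => rw [Set.mem_singleton_iff] at hy; subst hy; exact h
        | algebraMap y => simp
        | add y z _ _ hy hz => rw [map_add, map_add, hy, hz]
        | inv y _ hy => rw [map_inv₀, map_inv₀, hy]
        | mul y z _ _ hy hz => rw [map_mul, map_mul, hy, hz]
      exact RingHom.ext fun x => AlgHom.congr_fun he x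
  have hinj : Function.Injective (algebraMap F K) := (algebraMap F K).injective
  have hβi : IsIntegral ℤ β := (isIntegral_algebraMap_iff hinj).1 (by rw [hβ]; exact hθ.pow p)
  have hβ0 : β ≠ 0 := fun h => pow_ne_zero p h0 (by rw [← hβ, h, map_zero])
  have hβroot : ∀ k : ℕ, 0 < k → β ^ k ≠ 1 := fun k hk hb =>
    hroot (p * k) (Nat.mul_pos hp.pos hk) (by rw [pow_mul, ← hβ, ← map_pow, hb, map_one])
  have hmain : (finrank F K : ℝ) * hsum β = p * hsum θ := by
    rw [← hsum_algebraMap (L := K) β, hβ, hsum_pow]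
  by_cases hp' : p ≤ finrank F K
  · refine ⟨F, β, hlt, hβi, hβ0, hβroot, ?_⟩
    have h1 : (p : ℝ) * hsum β ≤ finrank F K * hsum β :=
      mul_le_mul_of_nonneg_right (by exact_mod_cast hp') (hsum_nonneg β)
    rw [hmain] at h1
    exact le_of_mul_le_mul_left h1 (by exact_mod_cast hp.pos)
  · obtain ⟨γ, hγ⟩ : ∃ γ : F, γ ^ p = β := by
      by_contra hno
      push Not at hno
      have hirr := X_pow_sub_C_irreducible_of_prime hp hno
      have h1 := minpoly.eq_of_irreducible_of_monic hirr (x := θ) (by simp [hβ])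
        (monic_X_pow_sub_C β hp.ne_zero)
      have h2 := minpoly.natDegree_le (A := F) θ
      rw [← h1, natDegree_X_pow_sub_C] at h2
      exact hp' h2
    have hγ0 : γ ≠ 0 := fun h => hβ0 (by rw [← hγ, h, zero_pow hp.ne_zero])
    refine ⟨F, γ, hlt, IsIntegral.of_pow hp.pos (by rwa [hγ]), hγ0, fun k hk hb => hβroot k hk
      (by rw [← hγ, ← pow_mul, mul_comm, pow_mul, hb, one_pow]), ?_⟩
    rw [← hγ, hsum_pow] at hmain
    have h1 : (p : ℝ) * ((finrank F K : ℝ) * hsum γ) = p * hsum θ := by linarith
    rw [mul_left_cancel₀ (Nat.cast_ne_zero.2 hp.ne_zero) h1 |>.symm]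
    exact le_mul_of_one_le_left (hsum_nonneg γ) (by exact_mod_cast finrank_pos)

/-- **The criterion**: the height of `θ` exceeds `B` as soon as there are `r` and more than `4 r²`
large primes whose powers separate the conjugates. -/
theorem hsum_gt_of_primes {θ : K} (hθ : IsIntegral ℤ θ) (h0 : θ ≠ 0)
    (hroot : ∀ k : ℕ, 0 < k → θ ^ k ≠ 1) {r : ℕ} (hr : 0 < r) {P : Finset ℕ}
    (hprime : ∀ p ∈ P, p.Prime) (hcard : 4 * r ^ 2 < P.card)
    (hinj : ∀ p ∈ P, Function.Injective fun σ : K →+* ℂ => σ (θ ^ p)) {B : ℝ}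
    (hB : 4 * (r : ℝ) ^ 2 * B ≤ 1)
    (hP : ∀ p ∈ P, 15 * ((4 * r ^ 2 * finrank ℚ K : ℕ) : ℝ) ^ 2 *
      Real.exp (4 * (r : ℝ) ^ 2 * p * B) < (p : ℝ) ^ r) :
    B < hsum θ := by
  classical
  by_contra hle
  rw [not_lt] at hle
  obtain ⟨F, hF, hdeg, hcoeff, hvan⟩ := exists_auxiliary hθ hr
    ((mul_le_mul_of_nonneg_left hle (by positivity)).trans hB)
  have hzero : ∀ p ∈ P, aeval (θ ^ p) F = 0 := fun p hp =>
    aeval_pow_eq_zero hθ hr hF hdeg hcoeff hvan (hprime p hp)
      (lt_of_le_of_lt (mul_le_mul_of_nonneg_left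
        (Real.exp_le_exp.2 (mul_le_mul_of_nonneg_left hle (by positivity))) (by positivity))
        (hP p hp))
  have hpairs : Function.Injective fun z : P × (K →+* ℂ) => z.2 (θ ^ (z.1 : ℕ)) := by
    rintro ⟨⟨p, hp⟩, σ⟩ ⟨⟨q, hq⟩, τ⟩ h
    simp only at h
    have h1 := hsum_eq_of_common (hinj p hp) (hinj q hq) h
    rw [hsum_pow, hsum_pow] at h1
    obtain rfl : p = q := by
      exact_mod_cast mul_right_cancel₀ (hsum_pos hθ h0 hroot).ne' h1
    obtain rfl : σ = τ := hinj p hp h
    rfl
  have hmapdeg : (F.map (Int.castRingHom ℂ)).natDegree <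
      Fintype.card (P × (K →+* ℂ)) := by
    rw [natDegree_map_eq_of_injective (Int.cast_injective : Function.Injective _),
      Fintype.card_prod, Fintype.card_coe, NumberField.Embeddings.card]
    exact hdeg.trans_le (Nat.mul_le_mul_right _ hcard.le)
  refine hF ((Polynomial.map_eq_zero_iff
    (show Function.Injective (Int.castRingHom ℂ) from Int.cast_injective)).1
      (eq_zero_of_natDegree_lt_card_of_eval_eq_zero _ hpairs (fun z => ?_) hmapdeg))
  rw [eval_map, ← algebraMap_int_eq, ← aeval_def, ← map_aeval_int, hzero _ z.1.2, map_zero]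

end FA.Lehmer

end
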