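import Fermat.Agent.Lehmer.Basic
import Mathlib.Analysis.Real.Sqrt
import Mathlib.NumberTheory.Real.GoldenRatio

/-!
# Schinzel's theorem on totally real algebraic integers

If all conjugates of the algebraic integer `x ≠ 0, ±1` are real, its Mahler measure is at least
`φ ^ (d / 2)` for the golden ratio `φ`.
-/

set_option autoImplicit false

noncomputable section

open Finset Module Real NumberField

namespace FA.Lehmer

/-- Weighted tangent lines: `u log y + b log (1 - y)` is largest at `y = u / (u + b)`. -/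
theorem log_weight_le {u b y : ℝ} (hu : 0 < u) (hb : 0 < b) (hy0 : 0 < y) (hy1 : y < 1) :
    u * log y + b * log (1 - y) ≤ u * log (u / (u + b)) + b * log (b / (u + b)) := by
  have h1 := log_le_sub_one_of_pos (div_pos hy0 (div_pos hu (add_pos hu hb)))
  have h2 := log_le_sub_one_of_pos (div_pos (sub_pos.2 hy1) (div_pos hb (add_pos hu hb)))
  rw [log_div hy0.ne' (div_pos hu (add_pos hu hb)).ne'] at h1
  rw [log_div (sub_pos.2 hy1).ne' (div_pos hb (add_pos hu hb)).ne'] at h2
  have e1 := mul_le_mul_of_nonneg_left h1 hu.le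
  have e2 := mul_le_mul_of_nonneg_left h2 hb.le
  have e : u * (y / (u / (u + b)) - 1) + b * ((1 - y) / (b / (u + b)) - 1) = 0 := by
    field_simp
    ring
  linarith

/-- The inequality behind Schinzel's bound. -/
theorem schinzel_inequality {t : ℝ} (h0 : t ≠ 0) (h1 : t ^ 2 ≠ 1) :
    (1 / 2 - 1 / (2 * √5)) * log |t| + 1 / (2 * √5) * log |t ^ 2 - 1| + log goldenRatio / 2
      ≤ log⁺ |t| := by
  have h5 : (√5) ^ 2 = 5 := sq_sqrt (by norm_num)
  have h5' : 1 < √5 := by rw [Real.lt_sqrt zero_le_one]; norm_num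
  set u := 1 / 4 - 1 / (4 * √5) with hu
  set b := 1 / (2 * √5) with hb
  have hu0 : 0 < u := by
    rw [hu, sub_pos, one_div_lt_one_div (by positivity) (by norm_num)]
    linarith
  have hb0 : 0 < b := by positivity
  have hφ : 0 < goldenRatio := goldenRatio_pos
  have hsum : u + b = 1 / 4 + 1 / (4 * √5) := by rw [hu, hb]; field_simp; ring
  have hq : b / (u + b) = goldenRatio⁻¹ := by
    rw [hsum, hb, goldenRatio]
    field_simp
    nlinarith
  have hp : u / (u + b) = goldenRatio⁻¹ ^ 2 := by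
    have : u / (u + b) = 1 - b / (u + b) := by field_simp; ring
    rw [this, hq]
    rw [goldenRatio]
    field_simp
    linarith only [h5, show (1 + √5) * (1 + √5 - 2) = √5 ^ 2 - 1 by ring]
  have hmax : u * log (u / (u + b)) + b * log (b / (u + b)) = -(log goldenRatio / 2) := by
    rw [hp, hq, log_pow, log_inv, hu, hb]
    field_simp
    ring
  have hy : 0 < t ^ 2 := by positivity
  have hlog : log (t ^ 2) = 2 * log |t| := by rw [← sq_abs, log_pow]; norm_num
  have hcoef : (1 / 2 - 1 / (2 * √5)) * log |t| = u * log (t ^ 2) := by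
    rw [hlog, hu]; field_simp; ring
  rw [hcoef]
  rcases lt_or_gt_of_ne h1 with h | h
  · have := log_weight_le hu0 hb0 hy h
    rw [hmax] at this
    rw [abs_sub_comm, abs_of_pos (sub_pos.2 h)]
    linarith [posLog_nonneg (x := |t|)]
  · have hz0 : 0 < (t ^ 2)⁻¹ := inv_pos.2 hy
    have hz1 : (t ^ 2)⁻¹ < 1 := inv_lt_one_of_one_lt₀ h
    have := log_weight_le hu0 hb0 hz0 hz1
    rw [hmax, log_inv] at this
    have habs : 1 ≤ |(|t|)| := by
      rw [abs_abs]
      nlinarith [sq_abs t, abs_nonneg t]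
    rw [abs_of_pos (sub_pos.2 h), posLog_eq_log habs]
    have hm : log (t ^ 2 - 1) = log (t ^ 2) + log (1 - (t ^ 2)⁻¹) := by
      rw [← log_mul hy.ne' (sub_pos.2 hz1).ne', mul_sub, mul_one, mul_inv_cancel₀ hy.ne']
    have hL : log |t| = (2 * u + b) * log (t ^ 2) := by
      rw [hlog, hu, hb]; field_simp; ring
    rw [hm, hL]
    linarith

variable {K : Type*} [Field K] [NumberField K]

/-- **Schinzel's theorem**: if all conjugates of the algebraic integer `x`, not `0` or `±1`, are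
real, then `∑ σ, log⁺ ‖σ x‖ ≥ [K : ℚ] / 2 · log φ`. -/
theorem schinzel_hsum {x : K} (hx : IsIntegral ℤ x) (h0 : x ≠ 0) (h1 : x ≠ 1) (h2 : x ≠ -1)
    (hreal : ∀ σ : K →+* ℂ, (σ x).im = 0) :
    finrank ℚ K * (log goldenRatio / 2) ≤ hsum x := by
  have hsq : x ^ 2 - 1 ≠ 0 := fun h => by
    rw [sub_eq_zero, sq_eq_one_iff] at h
    exact h.elim h1 h2
  have key : ∀ σ : K →+* ℂ, (1 / 2 - 1 / (2 * √5)) * log ‖σ x‖ +
      1 / (2 * √5) * log ‖σ (x ^ 2 - 1)‖ + log goldenRatio / 2 ≤ log⁺ ‖σ x‖ := by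
    intro σ
    obtain ⟨t, ht⟩ : ∃ t : ℝ, σ x = t := ⟨(σ x).re, Complex.ext rfl (hreal σ)⟩
    have ht0 : t ≠ 0 := fun h => h0 ((map_eq_zero σ).1 (by rw [ht, h, Complex.ofReal_zero]))
    have ht1 : t ^ 2 ≠ 1 := fun h => hsq ((map_eq_zero σ).1
      (by rw [map_sub, map_pow, ht, map_one, ← Complex.ofReal_pow, h, Complex.ofReal_one,
        sub_self]))
    rw [map_sub, map_pow, map_one, ht, ← Complex.ofReal_pow, ← Complex.ofReal_one,
      ← Complex.ofReal_sub, Complex.norm_real, Complex.norm_real, Real.norm_eq_abs,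
      Real.norm_eq_abs]
    exact schinzel_inequality ht0 ht1
  have hlog : ∀ z : K, IsIntegral ℤ z → z ≠ 0 → 0 ≤ ∑ σ : K →+* ℂ, log ‖σ z‖ := fun z hz hz0 => by
    rw [← log_prod fun σ _ => norm_ne_zero_iff.2 ((map_ne_zero σ).2 hz0)]
    exact log_nonneg (one_le_prod_norm hz hz0)
  have hsum := sum_le_sum (s := univ) fun σ _ => key σ
  rw [sum_add_distrib, sum_add_distrib, ← mul_sum, ← mul_sum, sum_const, card_univ,
    NumberField.Embeddings.card, nsmul_eq_mul] at hsum
  have ha : (0 : ℝ) ≤ 1 / 2 - 1 / (2 * √5) := by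
    rw [sub_nonneg, one_div_le_one_div (by positivity) two_pos]
    nlinarith [sq_sqrt (show (0 : ℝ) ≤ 5 by norm_num), sqrt_nonneg (5 : ℝ)]
  have := mul_nonneg ha (hlog x hx h0)
  have := mul_nonneg (show (0 : ℝ) ≤ 1 / (2 * √5) by positivity)
    (hlog _ ((hx.pow 2).sub isIntegral_one) hsq)
  exact le_trans (by linarith) hsum

end FA.Lehmer

end
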