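import Fermat.Agent.Lehmer.Bound
import Fermat.Agent.Lehmer.Schinzel
import Mathlib.Analysis.Polynomial.MahlerMeasure
import Mathlib.RingTheory.Polynomial.GaussLemma

/-!
# The sum over embeddings and the Mahler measure

For a monic irreducible `f ∈ ℤ[X]` with root field `K = ℚ[X] / (f)` and root `x` the sum
`∑ σ, log⁺ ‖σ x‖` is the logarithm of the Mahler measure of `f`.
-/

set_option autoImplicit false
set_option linter.style.haveILetI false

noncomputable section

open Finset Module Real NumberField Polynomial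

namespace FA.Lehmer

variable {f : ℤ[X]}

theorem map_rat_irreducible (hf : f.Monic) (hirr : Irreducible f) :
    Irreducible (f.map (algebraMap ℤ ℚ)) :=
  (hf.irreducible_iff_irreducible_map_fraction_map (K := ℚ)).1 hirr

/-- A number field generated by a root `x` of `f`. -/
theorem exists_root_field (hf : f.Monic) (hirr : Irreducible f) :
    ∃ (K : Type) (_ : Field K) (_ : NumberField K) (x : K), IsIntegral ℤ x ∧
      finrank ℚ K = f.natDegree ∧ Real.log (f.map (Int.castRingHom ℂ)).mahlerMeasure = hsum x ∧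
      ∀ σ : K →+* ℂ, (f.map (Int.castRingHom ℂ)).IsRoot (σ x) := by
  classical
  set g := f.map (algebraMap ℤ ℚ) with hg
  have hgm : g.Monic := hf.map _
  have hgirr : Irreducible g := map_rat_irreducible hf hirr
  obtain ⟨z, hz⟩ := IsAlgClosed.exists_aeval_eq_zero ℂ g
    (degree_ne_of_natDegree_ne (Nat.ne_of_gt hgirr.natDegree_pos))
  have hzi : IsIntegral ℚ z := ⟨g, hgm, hz⟩
  haveI : FiniteDimensional ℚ (IntermediateField.adjoin ℚ {z}) :=
    IntermediateField.adjoin.finiteDimensional hzi
  haveI : NumberField (IntermediateField.adjoin ℚ {z}) := { to_finiteDimensional := this }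
  set x : IntermediateField.adjoin ℚ {z} := IntermediateField.AdjoinSimple.gen ℚ z
  have hxg : aeval x g = 0 := by
    refine Subtype.ext ?_
    rw [IntermediateField.coe_zero, ← hz]
    exact (aeval_algHom_apply (IntermediateField.adjoin ℚ {z}).val x g).symm
  have hx : aeval x f = 0 := by rwa [hg, aeval_map_algebraMap] at hxg
  have hroot : ∀ σ : IntermediateField.adjoin ℚ {z} →+* ℂ,
      (f.map (Int.castRingHom ℂ)).IsRoot (σ x) := fun σ => by
    rw [IsRoot.def, eval_map, ← algebraMap_int_eq, ← aeval_def, ← map_aeval_int, hx, map_zero]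
  have hmin : minpoly ℚ x = g :=
    (minpoly.eq_of_irreducible_of_monic hgirr hxg hgm).symm
  refine ⟨IntermediateField.adjoin ℚ {z}, inferInstance, inferInstance, x, ⟨f, hf, hx⟩, ?_, ?_,
    hroot⟩
  · rw [IntermediateField.adjoin.finrank hzi,
      ← minpoly.eq_of_irreducible_of_monic hgirr hz hgm, hg, hf.natDegree_map]
  · have hinj : Function.Injective fun σ : IntermediateField.adjoin ℚ {z} →+* ℂ => σ x := by
      intro σ τ h
      have e : σ.toRatAlgHom = τ.toRatAlgHom :=
        (IntermediateField.adjoin.powerBasis hzi).algHom_ext h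
      exact RingHom.ext fun y => AlgHom.congr_fun e y
    have hmap : f.map (Int.castRingHom ℂ) = g.map (algebraMap ℚ ℂ) := by
      rw [hg, Polynomial.map_map, ← IsScalarTower.algebraMap_eq, algebraMap_int_eq]
    have hnodup : (g.map (algebraMap ℚ ℂ)).roots.Nodup :=
      nodup_roots (map_rat_irreducible hf hirr).separable.map
    rw [← Polynomial.logMahlerMeasure_eq_log_MahlerMeasure,
      Polynomial.logMahlerMeasure_eq_log_leadingCoeff_add_sum_log_roots, hmap,
      (hgm.map _).leadingCoeff, norm_one, Real.log_one, zero_add]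
    have e : hsum x = ∑ a ∈ (g.map (algebraMap ℚ ℂ)).roots.toFinset, log⁺ ‖a‖ := by
      rw [show (g.map (algebraMap ℚ ℂ)).roots = (minpoly ℚ x).aroots ℂ by rw [hmin, aroots_def],
        ← image_eval_eq_roots, sum_image fun a _ b _ hab => hinj hab]
      rfl
    rw [e, Finset.sum, Multiset.toFinset_val, hnodup.dedup]

theorem mahlerMeasure_map_pos (hf : f.Monic) : 0 < (f.map (Int.castRingHom ℂ)).mahlerMeasure :=
  Polynomial.mahlerMeasure_pos_of_ne_zero (hf.map _).ne_zero

/-- **Dobrowolski's theorem** for the Mahler measure. -/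
theorem dobrowolski : ∃ c > 0, ∀ f : ℤ[X], f.Monic → Irreducible f → 3 ≤ f.natDegree →
    (∀ (z : ℂ) (k : ℕ), (f.map (Int.castRingHom ℂ)).IsRoot z → 0 < k → z ^ k ≠ 1) →
    c * (Real.log (Real.log f.natDegree) / Real.log f.natDegree) ^ 3 ≤
      Real.log (f.map (Int.castRingHom ℂ)).mahlerMeasure := by
  obtain ⟨c, hc, hbound⟩ := dobrowolski_hsum
  refine ⟨c, hc, fun f hf hirr hd hnot => ?_⟩
  obtain ⟨K, _, _, x, hx, hdeg, hlog, hroot⟩ := exists_root_field hf hirr
  rw [hlog]
  refine hbound _ hd K hdeg.le x hx (fun h0 => ?_) fun k hk h => ?_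
  · obtain ⟨σ⟩ := (inferInstance : Nonempty (K →+* ℂ))
    have h := hroot σ
    rw [h0, map_zero, IsRoot.def, ← coeff_zero_eq_eval_zero, coeff_map, eq_intCast,
      Int.cast_eq_zero, ← X_dvd_iff] at h
    have := natDegree_eq_of_degree_eq (degree_eq_degree_of_associated
      (prime_X.irreducible.associated_of_dvd hirr h))
    rw [natDegree_X] at this
    omega
  · obtain ⟨σ⟩ := (inferInstance : Nonempty (K →+* ℂ))
    exact hnot (σ x) k (hroot σ) hk (by rw [← map_pow, h, map_one])

/-- **Schinzel's theorem** for the Mahler measure. -/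
theorem schinzel (hf : f.Monic) (hirr : Irreducible f) (hd : 2 ≤ f.natDegree)
    (hreal : ∀ z : ℂ, (f.map (Int.castRingHom ℂ)).IsRoot z → z.im = 0) :
    goldenRatio ^ f.natDegree ≤ (f.map (Int.castRingHom ℂ)).mahlerMeasure ^ 2 := by
  obtain ⟨K, _, _, x, hx, hdeg, hlog, hroot⟩ := exists_root_field hf hirr
  have hne : ∀ a : ℤ, x ≠ a := by
    intro a h0
    obtain ⟨σ⟩ := (inferInstance : Nonempty (K →+* ℂ))
    have h := hroot σ
    rw [h0, map_intCast, IsRoot.def, eval_map, eval₂_at_intCast, eq_intCast, Int.cast_eq_zero,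
      Int.cast_id, ← IsRoot.def, ← dvd_iff_isRoot] at h
    have := natDegree_eq_of_degree_eq (degree_eq_degree_of_associated
      ((irreducible_X_sub_C a).associated_of_dvd hirr h))
    rw [natDegree_X_sub_C] at this
    omega
  have h := schinzel_hsum hx (by simpa using hne 0) (by simpa using hne 1)
    (by simpa using hne (-1)) fun σ => hreal _ (hroot σ)
  rw [hdeg, ← hlog] at h
  rw [← Real.log_le_log_iff (pow_pos goldenRatio_pos _) (pow_pos (mahlerMeasure_map_pos hf) _),
    Real.log_pow, Real.log_pow]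
  push_cast
  linarith

/-- Schinzel's bound is attained at the golden ratio. -/
theorem schinzel_sharp :
    ((X ^ 2 - X - 1 : ℤ[X]).map (Int.castRingHom ℂ)).mahlerMeasure = goldenRatio := by
  have h : ((X ^ 2 - X - 1 : ℤ[X]).map (Int.castRingHom ℂ)) =
      (X - C (goldenRatio : ℂ)) * (X - C (goldenConj : ℂ)) := by
    have h1 : C ((goldenRatio : ℂ)) + C ((goldenConj : ℂ)) = (1 : ℂ[X]) := by
      rw [← Polynomial.C_add, ← Complex.ofReal_add, goldenRatio_add_goldenConj,
        Complex.ofReal_one, Polynomial.C_1]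
    have h2 : C ((goldenRatio : ℂ)) * C ((goldenConj : ℂ)) = (-1 : ℂ[X]) := by
      rw [← Polynomial.C_mul, ← Complex.ofReal_mul, goldenRatio_mul_goldenConj,
        Complex.ofReal_neg, Complex.ofReal_one, Polynomial.C_neg, Polynomial.C_1]
    rw [Polynomial.map_sub, Polynomial.map_sub, Polynomial.map_pow, Polynomial.map_X,
      Polynomial.map_one]
    linear_combination (X : ℂ[X]) * h1 - h2
  rw [h, Polynomial.mahlerMeasure_mul, Polynomial.mahlerMeasure_X_sub_C,
    Polynomial.mahlerMeasure_X_sub_C, Complex.norm_real, Complex.norm_real, Real.norm_eq_abs,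
    Real.norm_eq_abs, abs_of_pos goldenRatio_pos, max_eq_right one_lt_goldenRatio.le,
    max_eq_left, mul_one]
  rw [abs_le]
  exact ⟨neg_one_lt_goldenConj.le, le_trans goldenConj_neg.le zero_le_one⟩

end FA.Lehmer

end
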